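import Mathlib
import Fermat.Prelude.Def_GroupCohomology_ContinuousUnramified
import Fermat.Agent.F4.Duality

section MergeWrap_F4_Final -- from F4/Final.lean

/-!
# F4 / Final : from a Poitou–Tate segment to the statement of S55

`PTSegment S M M'` packages the part of the Poitou–Tate sequence needed for the duality
`Ш¹(M') ≅ Ш²(M)^*` as plain linear algebra over `ZMod p`:

    P1 --β--> X --δ--> H²(G_S, M) --loc--> ⊕_v H²(Q_v, M)
              | α (iso)
              v
         H¹(G_S, M')^*  <--λ'^*-- P1'^*  <<--ι-- P1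

(think `X = Ext¹_{G_S}(M', C_S)`, `P1 = Ext¹_{G_S}(M', J_S)`, `P1' = ⊕_v H¹(D_v, M')`).
`exists_pairing_of_PTSegment` is the final step of S55 (pure linear algebra, sorry-free).
-/

set_option autoImplicit false

open CategoryTheory Module groupCohomology ExtCitation

namespace Fermat.Agent.F4

section LinearAlgebra

variable {K : Type*} [Field K]

/-- Two finite-dimensional spaces of the same dimension admit a pairing that is non-degenerate
on both sides. -/
theorem exists_perfect_pairing_of_finrank_eq {V W : Type*} [AddCommGroup V] [Module K V]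
    [AddCommGroup W] [Module K W] [FiniteDimensional K V] [FiniteDimensional K W]
    (h : finrank K V = finrank K W) :
    ∃ B : V →ₗ[K] W →ₗ[K] K,
      (∀ y, (∀ x, B y x = 0) → y = 0) ∧ (∀ x, (∀ y, B y x = 0) → x = 0) := by
  classical
  -- `e : V ≃ Dual W`
  have h' : finrank K V = finrank K (Dual K W) := by rw [h, Subspace.dual_finrank_eq]
  let e : V ≃ₗ[K] Dual K W := LinearEquiv.ofFinrankEq V (Dual K W) h'
  refine ⟨e.toLinearMap, ?_, ?_⟩
  · intro y hy
    have : e y = 0 := LinearMap.ext fun x => by simpa using hy x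
    exact e.map_eq_zero_iff.1 this
  · intro x hx
    by_contra hne
    obtain ⟨f, hf⟩ : ∃ f : Dual K W, f x ≠ 0 := by
      by_contra hcon
      have hcon' : ∀ f : Dual K W, f x = 0 := by
        intro f
        by_contra hfx
        exact hcon ⟨f, hfx⟩
      exact hne ((Module.forall_dual_apply_eq_zero_iff K x).1 hcon')
    apply hf
    have := hx (e.symm f)
    simpa using this

end LinearAlgebra

variable {p : ℕ} [Fact p.Prime]

/-- The segment of the Poitou–Tate sequence used for `Ш¹(M') ≅ Ш²(M)^*`, as linear algebra.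
`M'` is any representation playing the role of `Hom(M, μ_p)`. -/
structure PTSegment (S : Finset Nat.Primes)
    (M M' : Rep (ZMod p) (AlgebraicClosure ℚ ≃ₐ[ℚ] AlgebraicClosure ℚ)) where
  /-- `Ext¹(M', C_S)` -/
  X : Type
  /-- `Ext¹(M', J_S)` (local term) -/
  P1 : Type
  /-- a space receiving the localisation of `H¹(G_S, M')`, e.g. `⊕_v H¹(D_v, M')` -/
  P1' : Type
  [instX : AddCommGroup X] [modX : Module (ZMod p) X]
  [instP1 : AddCommGroup P1] [modP1 : Module (ZMod p) P1]
  [instP1' : AddCommGroup P1'] [modP1' : Module (ZMod p) P1']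
  β : P1 →ₗ[ZMod p] X
  δ : X →ₗ[ZMod p] continuousH2S S M
  α : X →ₗ[ZMod p] Dual (ZMod p) ↥(continuousH1S S M')
  loc' : ↥(continuousH1S S M') →ₗ[ZMod p] P1'
  ι : P1 →ₗ[ZMod p] Dual (ZMod p) P1'
  /-- `H¹(G_S, M')` is finite (Hermite–Minkowski) -/
  finite_H1 : FiniteDimensional (ZMod p) ↥(continuousH1S S M')
  /-- exactness at `X` -/
  exact_X : LinearMap.range β = LinearMap.ker δ
  /-- exactness at `H²(G_S, M)`: the image of `δ` is `Ш²` -/
  exact_H2 : LinearMap.range δ = sha₂ S M
  /-- Tate's theorem -/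
  α_bijective : Function.Bijective α
  /-- the kernel of the localisation is `Ш¹` -/
  ker_loc' : LinearMap.ker loc' = (sha₁ S M').comap (continuousH1S S M').subtype
  /-- local duality (surjectivity suffices) -/
  ι_surjective : Function.Surjective ι
  /-- compatibility of the global and the local pairings -/
  compat : α ∘ₗ β = loc'.dualMap ∘ₗ ι

attribute [instance] PTSegment.instX PTSegment.modX PTSegment.instP1 PTSegment.modP1
  PTSegment.instP1' PTSegment.modP1'

namespace PTSegment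

variable {S : Finset Nat.Primes}
  {M M' : Rep (ZMod p) (AlgebraicClosure ℚ ≃ₐ[ℚ] AlgebraicClosure ℚ)} (D : PTSegment S M M')

include D

theorem finite_sha₁ : FiniteDimensional (ZMod p) ↥(sha₁ S M') := by
  have := D.finite_H1
  have hle : sha₁ S M' ≤ continuousH1S S M' := inf_le_left
  exact FiniteDimensional.of_injective (Submodule.inclusion hle)
    (Submodule.inclusion_injective hle)

theorem finite_X : FiniteDimensional (ZMod p) D.X := by
  have := D.finite_H1
  exact FiniteDimensional.of_injective D.α D.α_bijective.1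

theorem finite_sha₂ : FiniteDimensional (ZMod p) ↥(sha₂ S M) := by
  have := D.finite_X
  rw [← D.exact_H2]
  infer_instance

theorem finrank_sha₁_eq_finrank_sha₂ :
    finrank (ZMod p) ↥(sha₁ S M') = finrank (ZMod p) ↥(sha₂ S M) := by
  have := D.finite_H1
  have := D.finite_X
  -- dim X = dim H¹
  have hX : finrank (ZMod p) D.X = finrank (ZMod p) ↥(continuousH1S S M') := by
    rw [(LinearEquiv.ofBijective D.α D.α_bijective).finrank_eq, Subspace.dual_finrank_eq]
  -- dim sha₂ = dim range δ = dim X - dim ker δ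
  have h2 : finrank (ZMod p) ↥(sha₂ S M) + finrank (ZMod p) ↥(LinearMap.ker D.δ)
      = finrank (ZMod p) D.X := by
    rw [← D.exact_H2]
    exact LinearMap.finrank_range_add_finrank_ker D.δ
  -- dim ker δ = dim range β = dim range (α ∘ β) = dim range (loc'^* ∘ ι) = dim range loc'^* = rank loc'
  have h3 : finrank (ZMod p) ↥(LinearMap.ker D.δ)
      = finrank (ZMod p) ↥(LinearMap.range D.loc') := by
    rw [← D.exact_X]
    have hαβ : finrank (ZMod p) ↥(LinearMap.range D.β)
        = finrank (ZMod p) ↥(LinearMap.range (D.α ∘ₗ D.β)) := by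
      rw [LinearMap.range_comp]
      exact (LinearEquiv.finrank_eq
        (Submodule.equivMapOfInjective D.α D.α_bijective.1 (LinearMap.range D.β)))
    rw [hαβ, D.compat, LinearMap.range_comp,
      LinearMap.range_eq_top.2 D.ι_surjective, Submodule.map_top]
    exact LinearMap.finrank_range_dualMap_eq_finrank_range D.loc'
  -- rank loc' = dim H¹ - dim ker loc' = dim H¹ - dim sha₁
  have h4 : finrank (ZMod p) ↥(LinearMap.range D.loc') + finrank (ZMod p) ↥(LinearMap.ker D.loc')
      = finrank (ZMod p) ↥(continuousH1S S M') :=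
    LinearMap.finrank_range_add_finrank_ker D.loc'
  have h5 : finrank (ZMod p) ↥(LinearMap.ker D.loc') = finrank (ZMod p) ↥(sha₁ S M') := by
    rw [D.ker_loc']
    have hle : sha₁ S M' ≤ continuousH1S S M' := inf_le_left
    exact (Submodule.comapSubtypeEquivOfLe hle).finrank_eq
  omega

/-- The final step of S55: a Poitou–Tate segment gives a pairing `Ш¹(M') × Ш²(M) → F_p`
which is non-degenerate on both sides. -/
theorem exists_pairing :
    ∃ B : sha₁ S M' →ₗ[ZMod p] sha₂ S M →ₗ[ZMod p] ZMod p,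
      (∀ y, (∀ x, B y x = 0) → y = 0) ∧ (∀ x, (∀ y, B y x = 0) → x = 0) := by
  have := D.finite_sha₁
  have := D.finite_sha₂
  exact exists_perfect_pairing_of_finrank_eq D.finrank_sha₁_eq_finrank_sha₂

end PTSegment

end Fermat.Agent.F4
end MergeWrap_F4_Final

section MergeWrap_F4_Datum -- from F4/Datum.lean

/-!
# F4 / Datum : the number-theoretic input of S55 (Poitou–Tate), as structures (FIXED interface)

* `levelsS S`, `levelsAll` : the level structures of `G_S` and of `G_ℚ` on `Gal(ℚ̄/ℚ)`;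
* `LocalDatum p S q` : what LOC delivers at a prime `q ∈ S` (local class field theory mod `p`);
* `GlobalDatum p S` : what GLOB delivers (global class field theory mod `p` for `G_S`);
* base cases (23:55Z, request of LOC/GLOB): `a2inj`, `a1surj`, `finH1` are only required for open `U`
  of index prime to `p`, `a1inj` only for the levels `V ∈ levelsS S` (use `ddt_primeTo`,
  `ddt_inj_levels`, `finite_H1sm_primeTo` of `F4/DDT/Main.lean`); `ε_inj` added;
* consumers/producers: `F4/Glob/Main.lean` (`exists_globalDatum`, LOC + GLOB), `F4/PT/Main.lean`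
  (`exists_PTSegment`, PT), `F4/Assembly.lean` (`poitouTate` = S55 from these two).

Dictionary.  `L_q` = units of the field `(ℚ_S)_q = ℚ_q · ℚ_S ⊂ PadicAlgCl q`, `I_q ⊇ L_q` a `p`-divisible
smooth hull, `K_q = [I_q[p] → (I_q/L_q)[p]]` (so `HH^r(U, K_q) = Ext^r_U(𝔽_p, L_q)`);
`J = ∏_{q ∈ S} coInd L_q`, `E` = `S`-units of `ℚ_S` (`p`-divisible, `E[p] = μ_p`), `C = J/E`;
`KJ = ∏ coInd K_q`, `KC = KJ/μ_p` (so `HH^r(U, KC) = Ext^r_U(𝔽_p, C)`).
The archimedean place is dropped (`p` odd).
-/

set_option autoImplicit false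

open CategoryTheory groupCohomology ExtCitation

namespace Fermat.Agent.F4

/-- The absolute Galois group of `ℚ`. -/
abbrev GQ : Type := AlgebraicClosure ℚ ≃ₐ[ℚ] AlgebraicClosure ℚ

/-- `ℚ̄/ℚ` is Galois. -/
theorem isGalois_Qbar : IsGalois ℚ (AlgebraicClosure ℚ) := by
  have : Algebra.IsAlgebraic ℚ (AlgebraicClosure ℚ) := AlgebraicClosure.isAlgebraic ℚ
  have : IsAlgClosure ℚ (AlgebraicClosure ℚ) := ⟨inferInstance, inferInstance⟩
  infer_instance

/-- `F` is stable under `Gal(ℚ̄/ℚ)` (i.e. normal over `ℚ`). -/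
def IsStableField (F : IntermediateField ℚ (AlgebraicClosure ℚ)) : Prop :=
  ∀ (σ : GQ) (x : AlgebraicClosure ℚ), x ∈ F → σ x ∈ F

lemma isStableField_bot : IsStableField ⊥ := by
  intro σ x hx
  obtain ⟨r, rfl⟩ := IntermediateField.mem_bot.1 hx
  rw [σ.commutes r]
  exact IntermediateField.algebraMap_mem _ r

lemma IsStableField.sup {F F' : IntermediateField ℚ (AlgebraicClosure ℚ)}
    (hF : IsStableField F) (hF' : IsStableField F') : IsStableField (F ⊔ F') := by
  intro σ x hx
  have hle : F ⊔ F' ≤ (F ⊔ F').comap (σ : AlgebraicClosure ℚ →ₐ[ℚ] AlgebraicClosure ℚ) := by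
    refine sup_le (fun y hy => ?_) (fun y hy => ?_)
    · exact (le_sup_left : F ≤ F ⊔ F') (hF σ y hy)
    · exact (le_sup_right : F' ≤ F ⊔ F') (hF' σ y hy)
  exact hle hx

lemma IsStableField.normal_fixingSubgroup {F : IntermediateField ℚ (AlgebraicClosure ℚ)}
    (hF : IsStableField F) : F.fixingSubgroup.Normal := by
  refine ⟨fun σ hσ τ => ?_⟩
  rw [IntermediateField.mem_fixingSubgroup_iff] at hσ ⊢
  intro x hx
  have h1 : τ⁻¹ x ∈ F := hF τ⁻¹ x hx
  show τ (σ (τ⁻¹ x)) = x
  rw [hσ _ h1]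
  show τ (τ.symm x) = x
  simp

lemma finiteIndex_fixingSubgroup (F : IntermediateField ℚ (AlgebraicClosure ℚ))
    (hF : FiniteDimensional ℚ F) : F.fixingSubgroup.FiniteIndex := by
  have := isGalois_Qbar
  refine ⟨?_⟩
  rw [← IntermediateField.finrank_eq_fixingSubgroup_index]
  exact Module.finrank_pos.ne'

/-- The level structure of `G_S`: fixing subgroups of the finite Galois extensions of `ℚ` inside
`Qbar` unramified outside `S`. -/
noncomputable def levelsS (S : Finset Nat.Primes) : Levels GQ where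
  sets := {U | ∃ F : IntermediateField ℚ (AlgebraicClosure ℚ),
    F.IsUnramifiedOutside S ∧ IsStableField F ∧ U = F.fixingSubgroup}
  nonempty := ⟨(⊥ : IntermediateField ℚ (AlgebraicClosure ℚ)).fixingSubgroup, ⊥,
    IntermediateField.isUnramifiedOutside_bot S, isStableField_bot, rfl⟩
  normal := by
    rintro _ ⟨F, _, hG, rfl⟩
    exact hG.normal_fixingSubgroup
  finiteIndex := by
    rintro _ ⟨F, hF, hG, rfl⟩
    exact finiteIndex_fixingSubgroup F hF.1
  directed := by
    rintro _ ⟨F, hF, hG, rfl⟩ _ ⟨F', hF', hG', rfl⟩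
    refine ⟨_, ⟨F ⊔ F', hF.sup hF', hG.sup hG', rfl⟩, ?_⟩
    rw [IntermediateField.fixingSubgroup_sup]

/-- All levels: fixing subgroups of all finite Galois extensions of `ℚ` inside `Qbar`. -/
noncomputable def levelsAll : Levels GQ where
  sets := {U | ∃ F : IntermediateField ℚ (AlgebraicClosure ℚ),
    FiniteDimensional ℚ F ∧ IsStableField F ∧ U = F.fixingSubgroup}
  nonempty := ⟨(⊥ : IntermediateField ℚ (AlgebraicClosure ℚ)).fixingSubgroup, ⊥,
    (IntermediateField.isUnramifiedOutside_bot ∅).1, isStableField_bot, rfl⟩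
  normal := by
    rintro _ ⟨F, _, hG, rfl⟩
    exact hG.normal_fixingSubgroup
  finiteIndex := by
    rintro _ ⟨F, hF, hG, rfl⟩
    exact finiteIndex_fixingSubgroup F hF
  directed := by
    rintro _ ⟨F, hF, hG, rfl⟩ _ ⟨F', hF', hG', rfl⟩
    have := hF
    have := hF'
    refine ⟨_, ⟨F ⊔ F', IntermediateField.finiteDimensional_sup F F', hG.sup hG', rfl⟩, ?_⟩
    rw [IntermediateField.fixingSubgroup_sup]

section Data

variable (p : ℕ) [Fact p.Prime] (S : Finset Nat.Primes)

/-- `𝔽_p(1) = μ_p` as a `Gal(ℚ̄/ℚ)`-module. -/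
noncomputable abbrev Fp1 : Rep.{0} (ZMod p) GQ := ofChar (cycloChar p)

/-- The levels of the local group at `q` induced by the `S`-levels of `Gal(ℚ̄/ℚ)`. -/
noncomputable abbrev locLevelsS (q : Nat.Primes) : Levels (primeLocalGaloisGroup q) :=
  (levelsS S).comap (primeLocalToGlobal q)

/-- The levels of the local group at `q` induced by all levels of `Gal(ℚ̄/ℚ)`. -/
noncomputable abbrev locLevelsAll (q : Nat.Primes) : Levels (primeLocalGaloisGroup q) :=
  levelsAll.comap (primeLocalToGlobal q)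

/-- `μ_p` as a module over the local group at `q`, in degree `0`. -/
noncomputable abbrev locMu (q : Nat.Primes) : Cx (ZMod p) (primeLocalGaloisGroup q) :=
  Cx.deg0 (Rep.res (primeLocalToGlobal q) (Fp1 p))

/-- **Local datum at `q`** (deliverable of LOC): local class field theory mod `p` for the
formation `(D_q, L_q)`, `L_q` the units of `(ℚ_S)_q`, and for `(G_{ℚ_q}, μ_p)`. -/
structure LocalDatum (q : Nat.Primes) where
  /-- the complex `K_q = 𝔽_p ⊗ᴸ L_q` -/
  K : Cx (ZMod p) (primeLocalGaloisGroup q)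
  smooth : K.Smooth (locLevelsS S q)
  /-- `μ_p → L_q` -/
  ε : CxHom (locMu p q) K
  /-- `μ_p → I_q[p]` is injective -/
  ε_inj : Function.Injective ε.f0
  /-- the invariant `Ext²_{D_q}(𝔽_p, L_q) → 𝔽_p` -/
  inv : HH2 (locLevelsS S q) K →ₗ[ZMod p] ZMod p
  /-- `Ext²_U(𝔽_p, L_q) → 𝔽_p` is injective (`H¹(U, L_q)/p = 0`, `Br[p]` has order `≤ p`) -/
  a2inj : ∀ U : Subgroup (primeLocalGaloisGroup q), (locLevelsS S q).IsOpen U → ¬ p ∣ U.index →
    A2Inj (locLevelsS S q) K (permRep (ZMod p) U) inv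
  /-- the norm residue pairing `K^×/p × Hom(U, 𝔽_p) → 𝔽_p` is right-nondegenerate -/
  a1surj : ∀ (U : Subgroup (primeLocalGaloisGroup q)) (hU : (locLevelsS S q).IsOpen U),
    ¬ p ∣ U.index →
    A1Surj (locLevelsS S q) K (permRep (ZMod p) U) inv (permRep_smooth _ hU) (permRep_finite _ hU)
  /-- the invariant `H²(G_{ℚ_q}, μ_p) → 𝔽_p` (all levels) -/
  invAll : HH2 (locLevelsAll q) (locMu p q) →ₗ[ZMod p] ZMod p
  /-- `H²(G_K, μ_p) → 𝔽_p` is injective for every finite `K/ℚ_q` -/
  a2injAll : ∀ U : Subgroup (primeLocalGaloisGroup q), (locLevelsAll q).IsOpen U →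
    ¬ p ∣ U.index → A2Inj (locLevelsAll q) (locMu p q) (permRep (ZMod p) U) invAll
  /-- `K^×/p = H¹(G_K, μ_p) → Hom(G_K, 𝔽_p)^*` is surjective for every finite `K/ℚ_q` -/
  a1surjAll : ∀ (U : Subgroup (primeLocalGaloisGroup q)) (hU : (locLevelsAll q).IsOpen U),
    ¬ p ∣ U.index → A1Surj (locLevelsAll q) (locMu p q) (permRep (ZMod p) U) invAll
      (permRep_smooth _ hU) (permRep_finite _ hU)
  /-- compatibility of the two invariants: `inv ∘ ε = invAll ∘ inflation` on `H²(D_q, μ_p)` -/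
  inv_ε : ∀ (z : T2 (locMu p q)) (hz : z ∈ ZZ2 (locLevelsS S q) (locMu p q))
    (hz' : z ∈ ZZ2 (locLevelsAll q) (locMu p q)),
    inv (HH2π _ _ (ε.mapZZ2 _ ⟨z, hz⟩)) = invAll (HH2π _ _ ⟨z, hz'⟩)

/-- **Global datum** (deliverable of GLOB, on top of LOC): global class field theory mod `p`
for `G_S`. -/
structure GlobalDatum where
  /-- the local data -/
  loc : ∀ q : ↥S, LocalDatum p S q.1
  /-- `KJ = 𝔽_p ⊗ᴸ J`, `J = ∏_{q ∈ S} coInd L_q` -/
  KJ : Cx (ZMod p) GQ
  /-- `KC = 𝔽_p ⊗ᴸ C`, `C = J / E` -/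
  KC : Cx (ZMod p) GQ
  smoothJ : KJ.Smooth (levelsS S)
  smoothC : KC.Smooth (levelsS S)
  /-- `μ_p → J` -/
  f : CxHom (Cx.deg0 (Fp1 p)) KJ
  /-- `J → C` -/
  g : CxHom KJ KC
  exact : CxShortExact f g
  /-- the evaluation maps `J|_{D_q} → L_q` -/
  ev : ∀ q : ↥S, CxHom (KJ.res (primeLocalToGlobal q.1)) (loc q).K
  ev_f : ∀ (q : ↥S) (x : Fp1 p), (ev q).f0 (f.f0 x) = (loc q).ε.f0 x
  /-- Shapiro in degree 1 (surjectivity): every family of local classes comes from `J` -/
  shapiro1 : ∀ (N : Rep.{0} (ZMod p) GQ), IsSmooth (levelsS S) N → Module.Finite (ZMod p) N →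
    ∀ c : (∀ q : ↥S, ↥(ZZ1 (locLevelsS S q.1)
        (homCx (Rep.res (primeLocalToGlobal q.1) N) (loc q).K))),
      ∃ z : ↥(ZZ1 (levelsS S) (homCx N KJ)), ∀ q : ↥S,
        (homCxPost (Rep.res (primeLocalToGlobal q.1) N) (ev q)).onT1
            (resHomT1 (primeLocalToGlobal q.1) N KJ z.1) - (c q).1
          ∈ BB1 (homCx (Rep.res (primeLocalToGlobal q.1) N) (loc q).K)
  /-- Shapiro in degree 2 (injectivity): a class of `J` which is locally trivial is trivial -/
  shapiro2 : ∀ (N : Rep.{0} (ZMod p) GQ), IsSmooth (levelsS S) N → Module.Finite (ZMod p) N →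
    ∀ z : ↥(ZZ2 (levelsS S) (homCx N KJ)),
      (∀ q : ↥S, (homCxPost (Rep.res (primeLocalToGlobal q.1) N) (ev q)).onT2
            (resHomT2 (primeLocalToGlobal q.1) N KJ z.1)
          ∈ BB2 (locLevelsS S q.1) (homCx (Rep.res (primeLocalToGlobal q.1) N) (loc q).K)) →
        (z : T2 (homCx N KJ)) ∈ BB2 (levelsS S) (homCx N KJ)
  /-- the invariant `Ext²_{G_S}(𝔽_p, C) → 𝔽_p` -/
  inv : HH2 (levelsS S) KC →ₗ[ZMod p] ZMod p
  /-- reciprocity: the invariant of the image of a class of `J` is the sum of its local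
  invariants -/
  recip : ∀ z : ↥(ZZ2 (levelsS S) KJ),
    inv (HH2π _ _ (g.mapZZ2 _ z)) =
      ∑ q : ↥S, (loc q).inv (HH2π _ _ ((ev q).mapZZ2 _
        ⟨resT2 (primeLocalToGlobal q.1) KJ z.1, resT2_mem_ZZ2 _ _ KJ z.2⟩))
  /-- `Ext²_U(𝔽_p, C) → 𝔽_p` is injective, `U` open in `G_S` -/
  a2inj : ∀ U : Subgroup GQ, (levelsS S).IsOpen U → ¬ p ∣ U.index →
    A2Inj (levelsS S) KC (permRep (ZMod p) U) inv
  /-- global reciprocity mod `p`, surjectivity: `C(F)/p → Gal(F_S^{ab}/F)/p` is onto -/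
  a1surj : ∀ (U : Subgroup GQ) (hU : (levelsS S).IsOpen U), ¬ p ∣ U.index →
    A1Surj (levelsS S) KC (permRep (ZMod p) U) inv (permRep_smooth _ hU) (permRep_finite _ hU)
  /-- global reciprocity mod `p`, injectivity (existence theorem for exponent `p`) -/
  a1inj : ∀ (V : Subgroup GQ) (hV : V ∈ (levelsS S).sets),
    A1Inj (levelsS S) KC (permRep (ZMod p) V) inv
      (permRep_smooth _ ((levelsS S).isOpen_of_mem hV))
      (permRep_finite _ ((levelsS S).isOpen_of_mem hV))
  /-- `Hom(G_{F,S}, 𝔽_p)` is finite -/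
  finH1 : ∀ U : Subgroup GQ, (levelsS S).IsOpen U → ¬ p ∣ U.index →
    Module.Finite (ZMod p) (H1sm (levelsS S) (permRep (ZMod p) U))

end Data

end Fermat.Agent.F4
end MergeWrap_F4_Datum
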